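import Fermat.Agent.Period.MaxPrin

set_option autoImplicit false

open UpperHalfPlane hiding I
open ModularForm Complex Filter Topology Matrix.SpecialLinearGroup Metric
open scoped MatrixGroups Manifold Real
open Fermat.Agent.MFLib ModularCurve ModularCurve.Period CongruenceSubgroup

namespace Fermat.Agent.Period

noncomputable section

local notation "𝕢" => Function.Periodic.qParam
local notation "conj" => starRingEnd ℂ

/-- the reflection `z ↦ -conj z` -/
def rfx (z : ℍ) : ℍ := ⟨-conj (z : ℂ), by simpa using z.im_pos⟩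

@[simp] lemma coe_rfx (z : ℍ) : ((rfx z : ℍ) : ℂ) = -conj (z : ℂ) := rfl

lemma rfx_rfx (z : ℍ) : rfx (rfx z) = z := by
  ext
  simp

lemma jConj_smul_rfx (γ : SL(2, ℤ)) (z : ℍ) : jConjSL γ • rfx z = rfx (γ • z) := by
  ext
  rw [coe_rfx, UpperHalfPlane.coe_specialLinearGroup_apply, UpperHalfPlane.coe_specialLinearGroup_apply]
  simp only [jConjSL_coe, jConjMat_apply_zero_zero, jConjMat_apply_zero_one,
    jConjMat_apply_one_zero, jConjMat_apply_one_one, coe_rfx, map_div₀, map_add, map_mul]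
  simp
  rw [neg_div']
  congr 1
  ring

lemma qParam_rfx (M : ℕ) (z : ℍ) : 𝕢 M (rfx z : ℂ) = conj (𝕢 M (z : ℂ)) := by
  simp only [Function.Periodic.qParam, coe_rfx]
  rw [← Complex.exp_conj]
  congr 1
  simp [map_ofNat]

/-- antiholomorphic twist -/
def tw (F : ℍ → ℂ) (z : ℍ) : ℂ := conj (F (rfx z))

lemma QHolo.tw {M : ℕ} {F : ℍ → ℂ} (h : ∀ δ : SL(2, ℤ), QHolo M (fun w => F (δ • w)))
    (δ : SL(2, ℤ)) : QHolo M (fun w => tw F (δ • w)) := by
  obtain ⟨G, hG, hGF⟩ := h (jConjSL δ)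
  refine ⟨conj ∘ G ∘ conj, fun q hq => ?_, fun w => ?_⟩
  · have h1 : conj q ∈ ball (0 : ℂ) 1 := by
      rw [mem_ball_zero_iff] at hq ⊢
      rwa [Complex.norm_conj]
    have h2 := (hG.differentiableAt (isOpen_ball.mem_nhds h1)).conj_conj
    rw [Complex.conj_conj] at h2
    exact h2.differentiableWithinAt
  · have h1 := hGF (rfx w)
    simp only at h1
    change conj (F (rfx (δ • w))) = _
    rw [← jConj_smul_rfx, h1, qParam_rfx]
    rfl

lemma hasDerivAt_tw {F f : ℍ → ℂ} (hF : ∀ τ : ℍ, HasDerivAt (F ∘ ofComplex) (f τ) τ) (τ : ℍ) :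
    HasDerivAt (tw F ∘ ofComplex) (- conj (f (rfx τ))) (τ : ℂ) := by
  have h1 : HasDerivAt (fun z => (F ∘ ofComplex) (-z)) (f (rfx τ) * (-1)) (conj (τ : ℂ)) := by
    have h2 := hF (rfx τ)
    rw [coe_rfx] at h2
    exact h2.comp (conj (τ : ℂ)) (hasDerivAt_neg _)
  have h3 := h1.conj_conj
  rw [Complex.conj_conj] at h3
  have h4 : conj (f (rfx τ) * (-1)) = - conj (f (rfx τ)) := by simp
  rw [h4] at h3
  refine h3.congr_of_eventuallyEq ?_
  filter_upwards [isOpen_upperHalfPlaneSet.mem_nhds τ.im_pos] with z hz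
  simp only [Function.comp_apply, tw]
  have h5 : 0 < (-conj z).im := by simpa using hz
  rw [ofComplex_apply_of_im_pos hz, ofComplex_apply_of_im_pos h5]
  rfl

lemma deriv_zero_of_exp_const {A a : ℍ → ℂ} (hA : ∀ τ : ℍ, HasDerivAt (A ∘ ofComplex) (a τ) τ)
    {c : ℂ} (h : ∀ z, Complex.exp (A z) = c) (τ : ℍ) : a τ = 0 := by
  have h1 : HasDerivAt (fun z => Complex.exp ((A ∘ ofComplex) z))
      (Complex.exp ((A ∘ ofComplex) τ) * a τ) τ := (hA τ).cexp
  have h2 : HasDerivAt (fun z => Complex.exp ((A ∘ ofComplex) z)) 0 (τ : ℂ) := by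
    have h3 : (fun z : ℂ => Complex.exp ((A ∘ ofComplex) z)) = fun _ => c := by
      funext z
      exact h _
    rw [h3]
    exact hasDerivAt_const _ _
  have h4 := h1.unique h2
  exact (mul_eq_zero.mp h4).resolve_left (Complex.exp_ne_zero _)

lemma QHolo.exp_add {M : ℕ} {A B : ℍ → ℂ} (hA : QHolo M A) (hB : QHolo M B) (a b : ℂ) :
    QHolo M (fun w => Complex.exp (a * A w + b * B w)) := by
  obtain ⟨G, hG, hGA⟩ := hA
  obtain ⟨H, hH, hHB⟩ := hB
  refine ⟨fun q => Complex.exp (a * G q + b * H q), ((hG.const_mul a).add (hH.const_mul b)).cexp,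
    fun w => ?_⟩
  simp only [hGA, hHB]

lemma QHolo.mul_nat {M : ℕ} {A : ℍ → ℂ} (hM : 0 < M) (hA : QHolo M A) {k : ℕ} (hk : 0 < k) :
    QHolo (M * k) A := by
  obtain ⟨G, hG, hGA⟩ := hA
  refine ⟨fun q => G (q ^ k), fun q hq => ?_, fun w => ?_⟩
  · have h1 : q ^ k ∈ ball (0 : ℂ) 1 := by
      rw [mem_ball_zero_iff] at hq ⊢
      rw [norm_pow]
      exact pow_lt_one₀ (norm_nonneg _) hq hk.ne'
    exact ((hG.differentiableAt (isOpen_ball.mem_nhds h1)).comp q
      (differentiableAt_pow k)).differentiableWithinAt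
  · rw [hGA]
    congr 1
    simp only [Function.Periodic.qParam]
    rw [← Complex.exp_nat_mul]
    congr 1
    have h1 : (M : ℂ) ≠ 0 := by exact_mod_cast hM.ne'
    have h2 : (k : ℂ) ≠ 0 := by exact_mod_cast hk.ne'
    push_cast
    field_simp

theorem periodHomPair_injective (N : ℕ) [NeZero N] : Function.Injective (periodHomPair N) := by
  rw [← LinearMap.ker_eq_bot, LinearMap.ker_eq_bot']
  rintro ⟨f, g⟩ h
  rw [periodHomPair_apply] at h
  simp only at h
  obtain ⟨A, hA, M₁, hM₁, hA1⟩ := exists_hasEquivariantPrimitive N (f + g)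
  obtain ⟨V, hV, M₂, hM₂, hV1⟩ := exists_hasEquivariantPrimitive N (f - g)
  set M := M₁ * M₂ with hMdef
  have hM : 0 < M := Nat.mul_pos hM₁ hM₂
  have hA2 : ∀ δ : SL(2, ℤ), QHolo M (fun w => A (δ • w)) := fun δ => (hA1 δ).mul_nat hM₁ hM₂
  have hV2 : ∀ δ : SL(2, ℤ), QHolo M (fun w => V (δ • w)) := fun δ => by
    rw [hMdef, mul_comm]
    exact (hV1 δ).mul_nat hM₂ hM₁
  set B : ℍ → ℂ := tw V with hB
  have hB2 : ∀ δ : SL(2, ℤ), QHolo M (fun w => B (δ • w)) := fun δ => QHolo.tw hV2 δ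
  have hBd := hasDerivAt_tw hV.1
  -- the period relation
  have hrel : ∀ γ ∈ Gamma0 N, ∀ z : ℍ, A (γ • z) - A z = - conj (B (γ • z) - B z) := by
    intro γ hγ z
    have h1 := DFunLike.congr_fun h (Additive.ofMul (⟨γ, hγ⟩ : Gamma0 N))
    rw [AddMonoidHom.add_apply, charInvolution_apply, pml_apply, pml_apply,
      periodMap_apply hA _ z] at h1
    have h2 := periodMap_apply hV (jConjGamma0 N ⟨γ, hγ⟩) (rfx z)
    have h3 : (((jConjGamma0 N ⟨γ, hγ⟩ : Gamma0 N) : SL(2, ℤ)) • rfx z) = rfx (γ • z) :=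
      jConj_smul_rfx γ z
    rw [h3] at h2
    have h4 : (Additive.toMul (Additive.ofMul (⟨γ, hγ⟩ : Gamma0 N))) = ⟨γ, hγ⟩ := rfl
    rw [h4, h2] at h1
    have h5 : conj (B (γ • z) - B z) = V (rfx (γ • z)) - V (rfx z) := by
      rw [hB, tw, tw, map_sub, Complex.conj_conj, Complex.conj_conj]
    rw [h5, eq_neg_iff_add_eq_zero]
    exact h1
  have hE : ∀ a b : ℂ, (∀ x : ℂ, (a * x + b * (-conj x)).re = 0) →
      ∃ c : ℂ, ∀ z, Complex.exp (a * A z + b * B z) = c := by
    intro a b hab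
    refine eq_const_of_norm_invariant (Γ := Gamma0 N) (fun γ hγ z => ?_) hM
      (fun δ => (hA2 δ).exp_add (hB2 δ) a b)
    rw [Complex.norm_exp, Complex.norm_exp, Real.exp_eq_exp, ← sub_eq_zero, ← Complex.sub_re]
    have h6 := hrel γ hγ z
    have h7 := hab (A (γ • z) - A z)
    have h8 : B (γ • z) - B z = - conj (A (γ • z) - A z) := by
      rw [h6, map_neg, Complex.conj_conj, neg_neg]
    rw [← h7, ← h8]
    congr 1
    ring
  obtain ⟨c1, hc1⟩ := hE 1 1 (by intro x; simp)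
  obtain ⟨c2, hc2⟩ := hE I (-I) (by intro x; simp)
  have hd : ∀ (a b : ℂ) (τ : ℍ), HasDerivAt ((fun z => a * A z + b * B z) ∘ ofComplex)
      (a * (f + g) τ + b * (- conj ((f - g) (rfx τ)))) τ := fun a b τ =>
    ((hA.1 τ).const_mul a).add ((hBd τ).const_mul b)
  have h1 : ∀ τ : ℍ, (f + g) τ = 0 ∧ (f - g) (rfx τ) = 0 := by
    intro τ
    have e1 := deriv_zero_of_exp_const (hd 1 1) hc1 τ
    have e2 := deriv_zero_of_exp_const (hd I (-I)) hc2 τ
    have e3 : I * ((f + g) τ + conj ((f - g) (rfx τ))) = 0 := by linear_combination e2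
    have e4 := (mul_eq_zero.mp e3).resolve_left Complex.I_ne_zero
    have e5 : (f + g) τ = 0 := by linear_combination (e1 + e4) / 2
    refine ⟨e5, ?_⟩
    rw [e5, zero_add] at e4
    exact (map_eq_zero_iff _ (RingHom.injective _)).mp e4
  have h2 : f + g = 0 := by
    ext τ
    exact (h1 τ).1
  have h3 : f - g = 0 := by
    ext τ
    have := (h1 (rfx τ)).2
    rwa [rfx_rfx] at this
  have h4 : f = g := sub_eq_zero.mp h3
  have h5 : (2 : ℂ) • g = 0 := by
    rw [two_smul]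
    rw [h4] at h2
    exact h2
  have h6 : g = 0 := (smul_eq_zero.mp h5).resolve_left two_ne_zero
  rw [h4, h6]
  rfl

end

end Fermat.Agent.Period
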