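import Fermat.Agent.Period.Cocycle
import Fermat.Agent.Period.Inj
import Fermat.Agent.Cosets.Cusps
import Fermat.Agent.Cosets.Index

set_option autoImplicit false

open Finset Matrix.SpecialLinearGroup CongruenceSubgroup
open scoped MatrixGroups
open ModularCurve ModularCurve.Period Fermat.Agent.Cosets
open ModularGroup (S T)

namespace Fermat.Agent.Period

noncomputable section

variable (N : ℕ) [NeZero N]

omit [NeZero N] in
lemma neg_one_mem_Gamma0 : (-1 : SL(2, ℤ)) ∈ Gamma0 N := by
  rw [Gamma0_mem]; simp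

lemma card_filter_eq (g : SL(2, ℤ)) (s : ℕ)
    (h : Nat.card {x : X N // g • x = x} = s) [DecidableEq (X N)] :
    (Finset.univ.filter fun x : X N => g • x = x).card = s := by
  rw [← h, Nat.card_eq_fintype_card, Fintype.card_subtype]

lemma fintype_card_X : Fintype.card (X N) = dedekindPsi N := by
  rw [← card_X, Nat.card_eq_fintype_card]

lemma trace_Tr (g : SL(2, ℤ)) [DecidableEq (X N)] :
    LinearMap.trace ℂ ((SL(2, ℤ) ⧸ Gamma0 N) → ℂ) (Tr (Gamma0 N) g) =
      (Finset.univ.filter fun x : X N => g • x = x).card := trace_cmp _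

lemma finrank_ker_S : 2 * Module.finrank ℂ (LinearMap.ker (Tr (Gamma0 N) S - 1)) =
    dedekindPsi N + nuTwo N := by
  classical
  have h := finrank_ker_eq_trace (P := Tr (Gamma0 N) S) (n := 2) (by norm_num)
    (parPow_of_eq_neg_one (neg_one_mem_Gamma0 N) S_sq).Tr_pow_eq_one
  rw [Finset.sum_range_succ, Finset.sum_range_succ, Finset.sum_range_zero, zero_add,
    Tr_pow, Tr_pow, trace_Tr, trace_Tr, pow_one, card_filter_eq N S _ (card_fixed_S N)] at h
  simp only [pow_zero, one_smul, Finset.filter_true, Finset.card_univ] at h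
  rw [fintype_card_X] at h
  exact_mod_cast h

lemma finrank_ker_ST : 3 * Module.finrank ℂ (LinearMap.ker (Tr (Gamma0 N) (S * T) - 1)) =
    dedekindPsi N + 2 * nuThree N := by
  classical
  have h := finrank_ker_eq_trace (P := Tr (Gamma0 N) (S * T)) (n := 3) (by norm_num)
    (parPow_of_eq_neg_one (neg_one_mem_Gamma0 N) ST_cube).Tr_pow_eq_one
  have h3 : ∀ x : X N, (S * T) ^ 3 • x = x := by
    intro x
    have h4 := (parPow_of_eq_neg_one (neg_one_mem_Gamma0 N) ST_cube)
    induction x using QuotientGroup.induction_on with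
    | H y =>
      change (QuotientGroup.mk ((S * T) ^ 3 * y) : X N) = _
      rw [eq_comm, QuotientGroup.eq, ← mul_assoc]
      exact (h4 y).1
  have h2 : (Finset.univ.filter fun x : X N => (S * T) ^ 2 • x = x) =
      (Finset.univ.filter fun x : X N => (S * T) • x = x) := by
    apply Finset.filter_congr
    intro x _
    constructor
    · intro hx
      have := h3 x
      rw [pow_succ', mul_smul, hx] at this
      exact this
    · intro hx
      rw [pow_two, mul_smul, hx, hx]
  rw [Finset.sum_range_succ, Finset.sum_range_succ, Finset.sum_range_succ, Finset.sum_range_zero,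
    zero_add, Tr_pow, Tr_pow, Tr_pow, trace_Tr, trace_Tr, trace_Tr, pow_one, h2,
    card_filter_eq N (S * T) _ (card_fixed_ST N)] at h
  simp only [pow_zero, one_smul, Finset.filter_true, Finset.card_univ] at h
  rw [fintype_card_X] at h
  have h5 : ((3 * Module.finrank ℂ (LinearMap.ker (Tr (Gamma0 N) (S * T) - 1)) : ℕ) : ℂ) =
      ((dedekindPsi N + 2 * nuThree N : ℕ) : ℂ) := by
    push_cast
    push_cast at h
    rw [h]; ring
  exact_mod_cast h5

lemma cuspCount_le : cuspCount N ≤ Module.finrank ℂ (LinearMap.ker (Tr (Gamma0 N) T - 1)) := by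
  classical
  have hfin : Finite (TOrbits N) := inferInstance
  have : Fintype (TOrbits N) := Fintype.ofFinite _
  rw [← card_TOrbits, Nat.card_eq_fintype_card, ← Module.finrank_fintype_fun_eq_card ℂ]
  let pr : X N → TOrbits N := Quotient.mk''
  have hpr : Function.Surjective pr := Quotient.mk''_surjective
  let L : (TOrbits N → ℂ) →ₗ[ℂ] (X N → ℂ) := LinearMap.funLeft ℂ ℂ pr
  have hL : Function.Injective L := LinearMap.funLeft_injective_of_surjective ℂ ℂ pr hpr
  refine LinearMap.finrank_le_finrank_of_injective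
    (f := LinearMap.codRestrict (LinearMap.ker (Tr (Gamma0 N) T - 1)) L ?_) ?_
  · intro f
    rw [LinearMap.mem_ker, LinearMap.sub_apply, sub_eq_zero]
    funext x
    change f (pr (T • x)) = f (pr x)
    have h1 : pr (T • x) = pr x := Quotient.sound' ⟨⟨T, Subgroup.mem_zpowers T⟩, rfl⟩
    rw [h1]
  · intro a b hab
    apply hL
    exact congrArg Subtype.val hab

theorem finrank_parabolicHoms_le_genus :
    (Module.finrank ℂ ↥(parabolicHoms ℂ (Gamma0 N) ℂ) : ℚ) ≤ 2 * genusFormula N := by
  have h1 := finrank_parabolicHoms_le (neg_one_mem_Gamma0 N)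
  have h2 := finrank_ker_S N
  have h3 := finrank_ker_ST N
  have h4 := cuspCount_le N
  have h0 := fintype_card_X N
  rw [h0] at h1
  rw [genusFormula]
  have h1' : (Module.finrank ℂ ↥(parabolicHoms ℂ (Gamma0 N) ℂ) : ℚ) +
      Module.finrank ℂ (LinearMap.ker (Tr (Gamma0 N) S - 1)) +
      Module.finrank ℂ (LinearMap.ker (Tr (Gamma0 N) (S * T) - 1)) +
      Module.finrank ℂ (LinearMap.ker (Tr (Gamma0 N) T - 1)) ≤ dedekindPsi N + 2 := by
    exact_mod_cast h1
  have h2' : 2 * (Module.finrank ℂ (LinearMap.ker (Tr (Gamma0 N) S - 1)) : ℚ) =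
    dedekindPsi N + nuTwo N := by exact_mod_cast h2
  have h3' : 3 * (Module.finrank ℂ (LinearMap.ker (Tr (Gamma0 N) (S * T) - 1)) : ℚ) =
    dedekindPsi N + 2 * nuThree N := by exact_mod_cast h3
  have h4' : (cuspCount N : ℚ) ≤ Module.finrank ℂ (LinearMap.ker (Tr (Gamma0 N) T - 1)) := by
    exact_mod_cast h4
  linarith

lemma finiteDimensional_cusp_two :
    FiniteDimensional ℂ (CuspForm (CongruenceSubgroup.Gamma0 N) 2) := by
  have hinj := periodHomPair_injective N
  have hr : LinearMap.range (periodHomPair N) ≤ parabolicHoms ℂ (Gamma0 N) ℂ :=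
    range_le_parabolicHoms N
  have hfd : FiniteDimensional ℂ (CuspForm (CongruenceSubgroup.Gamma0 N) 2 ×
      CuspForm (CongruenceSubgroup.Gamma0 N) 2) :=
    Module.Finite.of_injective
      (LinearMap.codRestrict (parabolicHoms ℂ (Gamma0 N) ℂ) (periodHomPair N)
        (fun p => hr ⟨p, rfl⟩))
      (fun a b hab => hinj (congrArg Subtype.val hab))
  exact Module.Finite.of_injective (LinearMap.inl ℂ _ (CuspForm (CongruenceSubgroup.Gamma0 N) 2))
      LinearMap.inl_injective

/-- upper bound for the dimension of the space of cusp forms of weight two -/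
theorem finrank_cusp_two_le :
    (Module.finrank ℂ (CuspForm (CongruenceSubgroup.Gamma0 N) 2) : ℚ) ≤ genusFormula N := by
  have hfd := finiteDimensional_cusp_two N
  have h1 := finrank_parabolicHoms_le_genus N
  have h2 := Submodule.finrank_mono (range_le_parabolicHoms N)
  rw [LinearMap.finrank_range_of_inj (periodHomPair_injective N), Module.finrank_prod] at h2
  have h3 : ((Module.finrank ℂ (CuspForm (CongruenceSubgroup.Gamma0 N) 2) : ℚ) +
    Module.finrank ℂ (CuspForm (CongruenceSubgroup.Gamma0 N) 2)) ≤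
      Module.finrank ℂ ↥(parabolicHoms ℂ (Gamma0 N) ℂ) := by exact_mod_cast h2
  linarith

/-- S21, conditional on S20 -/
theorem eichlerShimura_of_genus
    (hg : (Module.finrank ℂ (CuspForm (CongruenceSubgroup.Gamma0 N) 2) : ℚ) = genusFormula N) :
    Function.Injective (periodHomPair N) ∧
      LinearMap.range (periodHomPair N) = parabolicHoms ℂ (Gamma0 N) ℂ := by
  have hinj := periodHomPair_injective N
  refine ⟨hinj, ?_⟩
  apply Submodule.eq_of_le_of_finrank_le (range_le_parabolicHoms N)
  have h1 := finrank_parabolicHoms_le_genus N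
  rw [← hg] at h1
  have hr : LinearMap.range (periodHomPair N) ≤ parabolicHoms ℂ (Gamma0 N) ℂ :=
    range_le_parabolicHoms N
  have hfd : FiniteDimensional ℂ (CuspForm (CongruenceSubgroup.Gamma0 N) 2 ×
      CuspForm (CongruenceSubgroup.Gamma0 N) 2) :=
    Module.Finite.of_injective
      (LinearMap.codRestrict (parabolicHoms ℂ (Gamma0 N) ℂ) (periodHomPair N)
        (fun p => hr ⟨p, rfl⟩))
      (fun a b hab => hinj (congrArg Subtype.val hab))
  have hfd2 : FiniteDimensional ℂ (CuspForm (CongruenceSubgroup.Gamma0 N) 2) :=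
    Module.Finite.of_injective (LinearMap.inl ℂ _ (CuspForm (CongruenceSubgroup.Gamma0 N) 2))
      LinearMap.inl_injective
  rw [LinearMap.finrank_range_of_inj hinj, Module.finrank_prod]
  have h2 : Module.finrank ℂ ↥(parabolicHoms ℂ (Gamma0 N) ℂ) ≤
      2 * Module.finrank ℂ (CuspForm (CongruenceSubgroup.Gamma0 N) 2) := by exact_mod_cast h1
  omega

end

end Fermat.Agent.Period
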