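import Fermat.Agent.Period.Equiv

set_option autoImplicit false

open UpperHalfPlane hiding I
open ModularForm Complex Filter Topology Matrix.SpecialLinearGroup Metric
open scoped MatrixGroups Manifold Real
open Fermat.Agent.MFLib ModularCurve ModularCurve.Period CongruenceSubgroup

namespace Fermat.Agent.Period

noncomputable section

lemma sl_mul_apply (g h : SL(2, ℤ)) (i j : Fin 2) :
    (g * h) i j = g i 0 * h 0 j + g i 1 * h 1 j := by
  simp [Matrix.mul_apply, Fin.sum_univ_two]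

/-- A parabolic element (or `±1`) acts as a conjugate of a translation. -/
lemma exists_conj_T_zpow (γ : SL(2, ℤ)) (h : (γ : Matrix (Fin 2) (Fin 2) ℤ).trace ^ 2 = 4) :
    ∃ (δ : SL(2, ℤ)) (m : ℤ), ∀ z : ℍ, γ • (δ • z) = δ • (ModularGroup.T ^ m • z) := by
  -- it suffices to find `δ` with `(δ⁻¹ γ δ) 1 0 = 0`
  suffices h1 : ∃ δ : SL(2, ℤ), (δ⁻¹ * γ * δ) 1 0 = 0 by
    obtain ⟨δ, hδ⟩ := h1
    obtain ⟨m, hm⟩ := ModularGroup.exists_eq_T_zpow_of_c_eq_zero hδ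
    refine ⟨δ, m, fun z => ?_⟩
    rw [← hm z, ← mul_smul, ← mul_smul]
    congr 1
    group
  have hdet : γ 0 0 * γ 1 1 - γ 0 1 * γ 1 0 = 1 := by
    have := γ.det_coe
    rwa [Matrix.det_fin_two] at this
  rw [Matrix.trace_fin_two] at h
  obtain ⟨ε, hε, htr⟩ : ∃ ε : ℤ, ε ^ 2 = 1 ∧ γ 0 0 + γ 1 1 = 2 * ε := by
    have h2 : (γ 0 0 + γ 1 1 - 2) * (γ 0 0 + γ 1 1 + 2) = 0 := by linarith
    rcases mul_eq_zero.mp h2 with h3 | h3
    · exact ⟨1, by norm_num, by linarith⟩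
    · exact ⟨-1, by norm_num, by linarith⟩
  by_cases hc : γ 1 0 = 0
  · exact ⟨1, by simpa using hc⟩
  · set a := γ 0 0 - ε with ha
    set c := γ 1 0 with hcdef
    have hg : (Int.gcd a c : ℤ) ≠ 0 := by
      intro h0
      exact hc (Int.gcd_eq_zero_iff.mp (by exact_mod_cast h0)).2
    obtain ⟨p, r, hpr, hp, hr⟩ := Int.exists_gcd_one (m := a) (n := c)
      (Nat.pos_of_ne_zero (by exact_mod_cast hg))
    rw [mul_comm] at hp hr
    have hcop : IsCoprime p r := Int.isCoprime_iff_gcd_eq_one.mpr hpr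
    obtain ⟨δ, hδ0, hδ1⟩ := hcop.exists_SL2_col 0
    refine ⟨δ, ?_⟩
    have hinv0 : δ⁻¹ 1 0 = - r := by
      rw [Matrix.SpecialLinearGroup.SL2_inv_expl, ← hδ1]; rfl
    have hinv1 : δ⁻¹ 1 1 = p := by
      rw [Matrix.SpecialLinearGroup.SL2_inv_expl, ← hδ0]; rfl
    rw [sl_mul_apply, sl_mul_apply, sl_mul_apply, hinv0, hinv1, hδ0, hδ1]
    have h5 : (Int.gcd a c : ℤ) ^ 2 * ((-r * γ 0 0 + p * γ 1 0) * p + (-r * γ 0 1 + p * γ 1 1) * r) = 0 := by
      have h6 : (Int.gcd a c : ℤ) ^ 2 * ((-r * γ 0 0 + p * γ 1 0) * p + (-r * γ 0 1 + p * γ 1 1) * r) =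
          (- (Int.gcd a c * r) * γ 0 0 + (Int.gcd a c * p) * γ 1 0) * (Int.gcd a c * p) +
          (- (Int.gcd a c * r) * γ 0 1 + (Int.gcd a c * p) * γ 1 1) * (Int.gcd a c * r) := by ring
      rw [h6, ← hp, ← hr]
      have hd : γ 1 1 = 2 * ε - γ 0 0 := by linarith
      rw [hd] at hdet ⊢
      rw [ha, ← hcdef]
      linear_combination c * hdet - c * hε
    exact (mul_eq_zero.mp h5).resolve_left (pow_ne_zero 2 hg)

lemma tendsto_T_zpow_smul (m : ℤ) :
    Tendsto (fun w : ℍ => ModularGroup.T ^ m • w) atImInfty atImInfty := by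
  rw [atImInfty, tendsto_comap_iff]
  refine tendsto_comap.congr fun w => ?_
  simp only [Function.comp_apply]
  rw [ModularGroup.im_T_zpow_smul]

theorem periodMap_mem_parabolicHoms (N : ℕ) [NeZero N] (f : CuspForm (Gamma0 N) 2) :
    pml N f ∈ parabolicHoms ℂ (Gamma0 N) ℂ := by
  rw [mem_parabolicHoms_iff]
  intro γ hγ
  obtain ⟨F, hF, -⟩ := exists_hasEquivariantPrimitive N f
  obtain ⟨δ, m, hδ⟩ := exists_conj_T_zpow γ hγ
  obtain ⟨L, hL⟩ := hF.2.2.2 δ
  rw [pml_apply]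
  have h1 : Tendsto (fun w : ℍ => F (δ • (ModularGroup.T ^ m • w)) - F (δ • w)) atImInfty (𝓝 (L - L)) :=
    (hL.comp (tendsto_T_zpow_smul m)).sub hL
  rw [sub_self] at h1
  have h2 : ∀ w : ℍ, F (δ • (ModularGroup.T ^ m • w)) - F (δ • w) =
      periodMap N f (Additive.ofMul γ) := by
    intro w
    rw [periodMap_apply hF γ (δ • w), hδ]
  simp only [h2] at h1
  exact tendsto_nhds_unique tendsto_const_nhds h1

theorem range_le_parabolicHoms (N : ℕ) [NeZero N] :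
    LinearMap.range (periodHomPair N) ≤ parabolicHoms ℂ (Gamma0 N) ℂ := by
  rintro _ ⟨p, rfl⟩
  rw [periodHomPair_apply]
  exact Submodule.add_mem _ (periodMap_mem_parabolicHoms N _)
    (charInvolution_mem_parabolicHoms N ℂ ℂ (periodMap_mem_parabolicHoms N _))

end

end Fermat.Agent.Period
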