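import Fermat.Agent.Period.PermOp
import Fermat.Agent.MFLib.Basic
import Fermat.Prelude.Def_ModularCurve_PeriodHomPair

set_option autoImplicit false

open Finset Matrix.SpecialLinearGroup
open scoped MatrixGroups
open ModularCurve ModularCurve.Period
open ModularGroup (S T)

namespace Fermat.Agent.Period

noncomputable section

variable {Γ : Subgroup SL(2, ℤ)}

lemma out_inv_mul_mem (g : SL(2, ℤ)) : (QuotientGroup.mk g : SL(2, ℤ) ⧸ Γ).out⁻¹ * g ∈ Γ :=
  QuotientGroup.eq.mp (QuotientGroup.out_eq' _)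

/-- the `Γ`-part of `g` -/
def sfun (Γ : Subgroup SL(2, ℤ)) (g : SL(2, ℤ)) : Γ :=
  ⟨(QuotientGroup.mk g : SL(2, ℤ) ⧸ Γ).out⁻¹ * g, out_inv_mul_mem g⟩

lemma sfun_mul (g : SL(2, ℤ)) (γ : Γ) : sfun Γ (g * γ) = sfun Γ g * γ := by
  apply Subtype.ext
  have h : (QuotientGroup.mk (g * γ) : SL(2, ℤ) ⧸ Γ) = QuotientGroup.mk g :=
    QuotientGroup.mk_mul_of_mem g γ.2
  simp only [sfun, h, Subgroup.coe_mul, mul_assoc]

/-- parabolic homs and functions on cosets -/
abbrev PV (Γ : Subgroup SL(2, ℤ)) : Type :=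
  ↥(parabolicHoms ℂ Γ ℂ) × ((SL(2, ℤ) ⧸ Γ) → ℂ)

/-- function on the group with `h (g γ) = h g + ψ γ` -/
def hL (g : SL(2, ℤ)) : PV Γ →ₗ[ℂ] ℂ where
  toFun p := p.1.1 (Additive.ofMul (sfun Γ g)) + p.2 (QuotientGroup.mk g)
  map_add' p q := by
    change (p.1.1 + q.1.1) _ + (p.2 + q.2) _ = _
    simp only [AddMonoidHom.add_apply, Pi.add_apply]
    ring
  map_smul' c p := by
    change (c • p.1.1) _ + (c • p.2) _ = _
    simp only [AddMonoidHom.smul_apply, Pi.smul_apply, smul_eq_mul, RingHom.id_apply]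
    ring

lemma hL_apply (g : SL(2, ℤ)) (p : PV Γ) :
    hL g p = p.1.1 (Additive.ofMul (sfun Γ g)) + p.2 (QuotientGroup.mk g) := rfl

lemma hL_mul (g : SL(2, ℤ)) (γ : Γ) (p : PV Γ) :
    hL (g * γ) p = hL g p + p.1.1 (Additive.ofMul γ) := by
  have h : (QuotientGroup.mk (g * γ) : SL(2, ℤ) ⧸ Γ) = QuotientGroup.mk g :=
    QuotientGroup.mk_mul_of_mem g γ.2
  rw [hL_apply, hL_apply, sfun_mul, h, ofMul_mul, map_add]
  ring

/-- differences -/
def Dg (g₀ : SL(2, ℤ)) : PV Γ →ₗ[ℂ] ((SL(2, ℤ) ⧸ Γ) → ℂ) :=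
  LinearMap.pi fun x => hL (g₀ * x.out) - hL x.out

lemma Dg_mk (g₀ y : SL(2, ℤ)) (p : PV Γ) :
    Dg g₀ p (QuotientGroup.mk y) = hL (g₀ * y) p - hL y p := by
  obtain ⟨γ, hγ⟩ := QuotientGroup.mk_out_eq_mul Γ y
  have hγ' : (QuotientGroup.mk y : SL(2, ℤ) ⧸ Γ).out = y * γ := hγ
  simp only [Dg, LinearMap.pi_apply, LinearMap.sub_apply]
  rw [hγ', ← mul_assoc, hL_mul, hL_mul]
  ring

/-- translation operators on functions on cosets -/
abbrev Tr (Γ : Subgroup SL(2, ℤ)) (g : SL(2, ℤ)) : Module.End ℂ ((SL(2, ℤ) ⧸ Γ) → ℂ) :=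
  cmp (fun x => g • x)

lemma smul_iterate (g : SL(2, ℤ)) (n : ℕ) :
    (fun x : SL(2, ℤ) ⧸ Γ => g • x)^[n] = fun x => g ^ n • x := by
  funext x
  rw [smul_iterate_apply]

lemma Tr_pow (g : SL(2, ℤ)) (n : ℕ) : Tr Γ g ^ n = Tr Γ (g ^ n) := by
  rw [Tr, cmp_pow, smul_iterate]

lemma Dg_pow_mk (g : SL(2, ℤ)) (n : ℕ) (y : SL(2, ℤ)) (p : PV Γ) :
    (∑ i ∈ range n, Tr Γ g ^ i) (Dg g p) (QuotientGroup.mk y) = hL (g ^ n * y) p - hL y p := by
  rw [LinearMap.sum_apply, Finset.sum_apply]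
  induction n with
  | zero => simp
  | succ n ih =>
    rw [Finset.sum_range_succ, ih, Tr_pow]
    have h1 : (Tr Γ (g ^ n)) (Dg g p) (QuotientGroup.mk y) =
        Dg g p (QuotientGroup.mk (g ^ n * y)) := rfl
    rw [h1, Dg_mk, ← mul_assoc, ← pow_succ']
    ring

/-- the condition that a power acts through parabolic elements of `Γ` -/
def ParPow (Γ : Subgroup SL(2, ℤ)) (g : SL(2, ℤ)) (n : ℕ) : Prop :=
  ∀ y : SL(2, ℤ), y⁻¹ * g ^ n * y ∈ Γ ∧
    ((y⁻¹ * g ^ n * y : SL(2, ℤ)) : Matrix (Fin 2) (Fin 2) ℤ).trace ^ 2 = 4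

lemma ParPow.sum_Dg {g : SL(2, ℤ)} {n : ℕ} (h : ParPow Γ g n) (p : PV Γ) :
    (∑ i ∈ range n, Tr Γ g ^ i) (Dg g p) = 0 := by
  funext x
  induction x using QuotientGroup.induction_on with
  | H y =>
    rw [Dg_pow_mk]
    obtain ⟨h1, h2⟩ := h y
    have h3 : g ^ n * y = y * ((⟨y⁻¹ * g ^ n * y, h1⟩ : Γ) : SL(2, ℤ)) := by
      simp only; group
    rw [h3, hL_mul, p.1.2 _ h2]
    simp

lemma ParPow.Tr_pow_eq_one {g : SL(2, ℤ)} {n : ℕ} (h : ParPow Γ g n) : Tr Γ g ^ n = 1 := by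
  rw [Tr_pow]
  ext f x
  induction x using QuotientGroup.induction_on with
  | H y =>
    have h1 : (g ^ n • (QuotientGroup.mk y : SL(2, ℤ) ⧸ Γ)) = QuotientGroup.mk y := by
      change (QuotientGroup.mk (g ^ n * y) : SL(2, ℤ) ⧸ Γ) = _
      rw [eq_comm, QuotientGroup.eq, ← mul_assoc]
      exact (h y).1
    simp [h1]

/-- the range of `g - 1` -/
abbrev KK (Γ : Subgroup SL(2, ℤ)) (g : SL(2, ℤ)) : Submodule ℂ ((SL(2, ℤ) ⧸ Γ) → ℂ) :=
  LinearMap.range (Tr Γ g - 1)

lemma ParPow.Dg_mem {g : SL(2, ℤ)} {n : ℕ} (hn : 0 < n) (h : ParPow Γ g n) (p : PV Γ) :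
    Dg g p ∈ KK Γ g := by
  rw [KK, ← range_sub_one_eq_ker_sum hn h.Tr_pow_eq_one, LinearMap.mem_ker]
  exact h.sum_Dg p

lemma Dg_mul (g h : SL(2, ℤ)) (p : PV Γ) :
    Dg (g * h) p = Tr Γ h (Dg g p) + Dg h p := by
  funext x
  induction x using QuotientGroup.induction_on with
  | H y =>
    have h1 : (Tr Γ h (Dg g p)) (QuotientGroup.mk y) = Dg g p (QuotientGroup.mk (h * y)) := rfl
    rw [Pi.add_apply, h1, Dg_mk, Dg_mk, Dg_mk, mul_assoc]
    ring

lemma neg_one_conj (y : SL(2, ℤ)) : y⁻¹ * (-1) * y = -1 := by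
  rw [mul_neg_one, neg_mul, inv_mul_cancel]

lemma S_sq : (S : SL(2, ℤ)) ^ 2 = -1 := by
  decide

lemma ST_cube : (S * T : SL(2, ℤ)) ^ 3 = -1 := by
  decide

lemma parPow_of_eq_neg_one (hneg : (-1 : SL(2, ℤ)) ∈ Γ) {g : SL(2, ℤ)} {n : ℕ} (h : g ^ n = -1) :
    ParPow Γ g n := by
  intro y
  rw [h, neg_one_conj]
  refine ⟨hneg, ?_⟩
  rw [Matrix.SpecialLinearGroup.coe_neg, Matrix.trace_neg]
  simp

lemma parPow_T {M : ℕ} (hM : ∀ y : SL(2, ℤ), y * T ^ M * y⁻¹ ∈ Γ) : ParPow Γ T M := by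
  intro y
  refine ⟨by simpa using hM y⁻¹, ?_⟩
  rw [Matrix.SpecialLinearGroup.coe_mul, Matrix.trace_mul_comm, ← Matrix.SpecialLinearGroup.coe_mul,
    ← mul_assoc, mul_inv_cancel, one_mul, ← zpow_natCast, ModularGroup.coe_T_zpow]
  simp [Matrix.trace_fin_two]

lemma closure_S_ST : Subgroup.closure ({S, S * T} : Set SL(2, ℤ)) = ⊤ := by
  rw [eq_top_iff, ← SpecialLinearGroup.SL2Z_generators, Subgroup.closure_le]
  have hS : S ∈ Subgroup.closure ({S, S * T} : Set SL(2, ℤ)) :=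
    Subgroup.subset_closure (by simp)
  have hST : S * T ∈ Subgroup.closure ({S, S * T} : Set SL(2, ℤ)) :=
    Subgroup.subset_closure (by simp)
  rintro x (rfl | rfl)
  · exact hS
  · have := Subgroup.mul_mem _ (Subgroup.inv_mem _ hS) hST
    simpa using this

/-- the full evaluation map -/
def evPV : PV Γ →ₗ[ℂ] ((SL(2, ℤ) ⧸ Γ) → ℂ) × ((SL(2, ℤ) ⧸ Γ) → ℂ) × ℂ :=
  (Dg S).prod ((Dg (S * T)).prod (hL 1))

lemma evPV_injective : Function.Injective (evPV (Γ := Γ)) := by
  rw [← LinearMap.ker_eq_bot, LinearMap.ker_eq_bot']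
  intro p hp
  have h1 : Dg S p = 0 := congrArg (fun q => q.1) hp
  have h2 : Dg (S * T) p = 0 := congrArg (fun q => q.2.1) hp
  have h3 : hL 1 p = 0 := congrArg (fun q => q.2.2) hp
  -- the stabilizer
  let Stab : Subgroup SL(2, ℤ) :=
    { carrier := {g | ∀ y : SL(2, ℤ), hL (g * y) p = hL y p}
      mul_mem' := by
        intro a b ha hb y
        rw [mul_assoc, ha, hb]
      one_mem' := by intro y; rw [one_mul]
      inv_mem' := by
        intro a ha y
        have := ha (a⁻¹ * y)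
        rw [mul_inv_cancel_left] at this
        exact this.symm }
  have hmem : ∀ g : SL(2, ℤ), Dg g p = 0 → g ∈ Stab := by
    intro g hg y
    have := congrFun hg (QuotientGroup.mk y)
    rw [Dg_mk, Pi.zero_apply, sub_eq_zero] at this
    exact this
  have htop : Stab = ⊤ := by
    rw [eq_top_iff, ← closure_S_ST, Subgroup.closure_le]
    rintro x (rfl | rfl)
    · exact hmem _ h1
    · exact hmem _ h2
  have hall : ∀ g : SL(2, ℤ), hL g p = 0 := by
    intro g
    have hg : g ∈ Stab := by rw [htop]; exact Subgroup.mem_top g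
    have := hg 1
    rw [mul_one] at this
    rw [this, h3]
  have hψ : p.1 = 0 := by
    apply Subtype.ext
    apply AddMonoidHom.ext
    intro γ
    have h4 := hL_mul 1 (Additive.toMul γ) p
    rw [one_mul, hall, hall, zero_add] at h4
    exact h4.symm
  have hv : p.2 = 0 := by
    funext x
    induction x using QuotientGroup.induction_on with
    | H y =>
      have h5 := hall y
      rw [hL_apply, hψ] at h5
      simpa using h5
  exact Prod.ext hψ hv

section dims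

variable [Γ.FiniteIndex]

instance fintypeQuot : Fintype (SL(2, ℤ) ⧸ Γ) := Fintype.ofFinite _

instance finitePV : FiniteDimensional ℂ (PV Γ) :=
  Module.Finite.of_injective (evPV (Γ := Γ)) evPV_injective

instance finiteParabolicHoms : FiniteDimensional ℂ ↥(parabolicHoms ℂ Γ ℂ) :=
  Module.Finite.of_injective (LinearMap.inl ℂ ↥(parabolicHoms ℂ Γ ℂ) ((SL(2, ℤ) ⧸ Γ) → ℂ))
    LinearMap.inl_injective

lemma finrank_KK_sup : Fintype.card (SL(2, ℤ) ⧸ Γ) ≤
    Module.finrank ℂ ↥(KK Γ S ⊔ KK Γ (S * T)) + 1 := by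
  classical
  set K := KK Γ S ⊔ KK Γ (S * T) with hK
  -- delta functions are congruent
  let d : (SL(2, ℤ) ⧸ Γ) → ((SL(2, ℤ) ⧸ Γ) → ℂ) := fun x => Pi.single x 1
  let Stab : Subgroup SL(2, ℤ) :=
    { carrier := {g | ∀ x, d x - d (g • x) ∈ K}
      mul_mem' := by
        intro a b ha hb x
        have := K.add_mem (hb x) (ha (b • x))
        rw [mul_smul]
        simpa using this
      one_mem' := by intro x; simp
      inv_mem' := by
        intro a ha x
        have := K.neg_mem (ha (a⁻¹ • x))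
        simpa using this }
  have hmem : ∀ g : SL(2, ℤ), KK Γ g ≤ K → g ∈ Stab := by
    intro g hg x
    have h1 : (Tr Γ g - 1) (d (g • x)) ∈ K := hg ⟨_, rfl⟩
    have h2 : (Tr Γ g - 1) (d (g • x)) = d x - d (g • x) := by
      funext y
      simp only [LinearMap.sub_apply, Module.End.one_apply, Pi.sub_apply, cmp_apply, d,
        Pi.single_apply]
      congr 1
      simp
    rwa [h2] at h1
  have htop : Stab = ⊤ := by
    rw [eq_top_iff, ← closure_S_ST, Subgroup.closure_le]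
    rintro x (rfl | rfl)
    · exact hmem _ le_sup_left
    · exact hmem _ le_sup_right
  set x₀ : SL(2, ℤ) ⧸ Γ := QuotientGroup.mk 1 with hx₀
  have hcong : ∀ x, d x - d x₀ ∈ K := by
    intro x
    induction x using QuotientGroup.induction_on with
    | H y =>
      have hy : y ∈ Stab := by rw [htop]; exact Subgroup.mem_top y
      have h3 := K.neg_mem (hy x₀)
      have h4 : y • x₀ = QuotientGroup.mk y := by
        change (QuotientGroup.mk (y * 1) : SL(2, ℤ) ⧸ Γ) = _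
        rw [mul_one]
      rw [h4, neg_sub] at h3
      exact h3
  have hq : Module.finrank ℂ (((SL(2, ℤ) ⧸ Γ) → ℂ) ⧸ K) ≤ 1 := by
    refine finrank_le_one (K.mkQ (d x₀)) fun w => ?_
    obtain ⟨f, rfl⟩ := K.mkQ_surjective w
    refine ⟨∑ x, f x, ?_⟩
    have h5 : f = ∑ x, f x • d x := by
      funext y
      simp [d, Finset.sum_apply, Pi.single_apply]
    conv_rhs => rw [h5]
    rw [Finset.sum_smul, map_sum]
    refine Finset.sum_congr rfl fun x _ => ?_
    rw [map_smul]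
    congr 1
    rw [← sub_eq_zero, ← map_sub]
    simp only [Submodule.mkQ_apply, Submodule.Quotient.mk_eq_zero]
    have := K.neg_mem (hcong x)
    rwa [neg_sub] at this
  have h6 := K.finrank_quotient_add_finrank
  rw [Module.finrank_fintype_fun_eq_card] at h6
  omega

/-- linear algebra behind the dimension estimate -/
lemma dim_abstract {V P : Type*} [AddCommGroup V] [Module ℂ V] [FiniteDimensional ℂ V]
    [AddCommGroup P] [Module ℂ P] (KS KU KT : Submodule ℂ V)
    (a b : P →ₗ[ℂ] V) (c : P →ₗ[ℂ] ℂ) (ha : ∀ p, a p ∈ KS) (hb : ∀ p, b p ∈ KU)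
    (hab : ∀ p, a p - b p ∈ KT) (hinj : Function.Injective (a.prod (b.prod c))) :
    Module.finrank ℂ P + Module.finrank ℂ ↥(KS ⊔ KU) ≤
      Module.finrank ℂ KS + Module.finrank ℂ KU + Module.finrank ℂ KT + 1 := by
  -- the map to the quotient
  let ρ : (↥KS × ↥KU) →ₗ[ℂ] (V ⧸ KT) := KT.mkQ ∘ₗ (KS.subtype.coprod (-KU.subtype))
  -- injective map from P
  let Φ : P →ₗ[ℂ] (↥(LinearMap.ker ρ) × ℂ) :=
    (LinearMap.codRestrict (LinearMap.ker ρ)
      ((LinearMap.codRestrict KS a ha).prod (LinearMap.codRestrict KU b hb)) (by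
        intro p
        rw [LinearMap.mem_ker]
        simp only [ρ, LinearMap.comp_apply, LinearMap.coprod_apply, LinearMap.prod_apply,
          Function.prod_apply, LinearMap.neg_apply, Submodule.subtype_apply,
          LinearMap.codRestrict_apply, Submodule.mkQ_apply, Submodule.Quotient.mk_eq_zero]
        have := hab p
        rwa [sub_eq_add_neg] at this)).prod c
  have hΦ : Function.Injective Φ := by
    intro p q hpq
    apply hinj
    have h1 := congrArg (fun z => ((z.1.1.1 : V))) hpq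
    have h2 := congrArg (fun z => ((z.1.1.2 : V))) hpq
    have h3 := congrArg (fun z => z.2) hpq
    exact Prod.ext h1 (Prod.ext h2 h3)
  have e1 := LinearMap.finrank_le_finrank_of_injective hΦ
  rw [Module.finrank_prod, Module.finrank_self] at e1
  have e2 := ρ.finrank_range_add_finrank_ker
  rw [Module.finrank_prod] at e2
  have e3 : LinearMap.range ρ = (KS ⊔ KU).map KT.mkQ := by
    rw [LinearMap.range_comp, LinearMap.range_coprod, LinearMap.range_neg, Submodule.range_subtype,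
      Submodule.range_subtype]
  have e4 : Module.finrank ℂ ↥(KS ⊔ KU) ≤
      Module.finrank ℂ (LinearMap.range ρ) + Module.finrank ℂ ↥KT := by
    rw [e3]
    have h1 := (KT.mkQ.domRestrict (KS ⊔ KU)).finrank_range_add_finrank_ker
    rw [LinearMap.range_domRestrict] at h1
    have h2 : Module.finrank ℂ (LinearMap.ker (KT.mkQ.domRestrict (KS ⊔ KU))) ≤
        Module.finrank ℂ ↥KT := by
      refine LinearMap.finrank_le_finrank_of_injective
        (f := LinearMap.codRestrict KT ((KS ⊔ KU).subtype ∘ₗ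
          (LinearMap.ker (KT.mkQ.domRestrict (KS ⊔ KU))).subtype) ?_) ?_
      · rintro ⟨x, hx⟩
        rw [LinearMap.mem_ker] at hx
        simpa using hx
      · intro a b hab
        apply Subtype.ext
        apply Subtype.ext
        exact congrArg (fun z : ↥KT => (z : V)) hab
    omega
  omega

/-- the main dimension estimate -/
theorem finrank_parabolicHoms_le (hneg : (-1 : SL(2, ℤ)) ∈ Γ) :
    Module.finrank ℂ ↥(parabolicHoms ℂ Γ ℂ) +
      Module.finrank ℂ (LinearMap.ker (Tr Γ S - 1)) +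
      Module.finrank ℂ (LinearMap.ker (Tr Γ (S * T) - 1)) +
      Module.finrank ℂ (LinearMap.ker (Tr Γ T - 1)) ≤ Fintype.card (SL(2, ℤ) ⧸ Γ) + 2 := by
  obtain ⟨M, hM, hMΓ⟩ := Fermat.Agent.MFLib.IsMF.exists_T_pow_mem Γ
  have hS := parPow_of_eq_neg_one hneg S_sq
  have hU := parPow_of_eq_neg_one hneg ST_cube
  have hT := parPow_T hMΓ
  have e1 := dim_abstract (KK Γ S) (KK Γ (S * T)) (KK Γ T) (Dg S) (Dg (S * T)) (hL 1)
    (hS.Dg_mem two_pos) (hU.Dg_mem three_pos) (fun p => by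
      rw [Dg_mul]
      have h1 : Dg S p - (Tr Γ T (Dg S p) + Dg T p) = -((Tr Γ T - 1) (Dg S p)) - Dg T p := by
        simp only [LinearMap.sub_apply, Module.End.one_apply]
        abel
      rw [h1]
      exact Submodule.sub_mem _ (Submodule.neg_mem _ ⟨_, rfl⟩) (hT.Dg_mem hM p)) evPV_injective
  have e1b : Module.finrank ℂ (PV Γ) = Module.finrank ℂ ↥(parabolicHoms ℂ Γ ℂ) +
      Fintype.card (SL(2, ℤ) ⧸ Γ) := by
    rw [Module.finrank_prod, Module.finrank_fintype_fun_eq_card]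
  rw [e1b] at e1
  have e5 := finrank_KK_sup (Γ := Γ)
  have f : ∀ g : SL(2, ℤ), Module.finrank ℂ ↥(KK Γ g) +
      Module.finrank ℂ (LinearMap.ker (Tr Γ g - 1)) = Fintype.card (SL(2, ℤ) ⧸ Γ) := fun g => by
    have := finrank_range_add_finrank_ker (Tr Γ g)
    rwa [Module.finrank_fintype_fun_eq_card] at this
  have f1 := f S
  have f2 := f (S * T)
  have f3 := f T
  omega

end dims

end

end Fermat.Agent.Period
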