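import Fermat.Agent.Period.Primitive

set_option autoImplicit false

open UpperHalfPlane hiding I
open ModularForm Complex Filter Topology Matrix.SpecialLinearGroup Metric
open scoped MatrixGroups Manifold Real
open Fermat.Agent.MFLib

namespace Fermat.Agent.Period

noncomputable section

local notation "𝕢" => Function.Periodic.qParam

lemma hasDerivAt_comp_smul {F f : ℍ → ℂ} (hF : ∀ τ : ℍ, HasDerivAt (F ∘ ofComplex) (f τ) τ)
    (δ : SL(2, ℤ)) (τ : ℍ) :
    HasDerivAt ((fun w : ℍ => F (δ • w)) ∘ ofComplex) ((f ∣[(2 : ℤ)] δ) τ) τ := by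
  have hdet1 : ((δ : GL (Fin 2) ℝ) : Matrix (Fin 2) (Fin 2) ℝ).det = 1 :=
    ((Matrix.SpecialLinearGroup.map (Int.castRingHom ℝ)) δ).det_coe
  have hdet : 0 < ((δ : GL (Fin 2) ℝ) : Matrix (Fin 2) (Fin 2) ℝ).det := by
    rw [hdet1]
    exact one_pos
  have h1 := (hasStrictDerivAt_smul (g := (δ : GL (Fin 2) ℝ)) hdet τ).hasDerivAt
  have h2 : HasDerivAt (F ∘ ofComplex) (f (δ • τ))
      ((fun z : ℂ => (((δ : GL (Fin 2) ℝ) • ofComplex z : ℍ) : ℂ)) (τ : ℂ)) := by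
    have := hF (δ • τ)
    simpa using this
  have h3 := h2.comp (τ : ℂ) h1
  have h4 : (F ∘ ofComplex) ∘ (fun z : ℂ => (((δ : GL (Fin 2) ℝ) • ofComplex z : ℍ) : ℂ)) =
      ((fun w : ℍ => F (δ • w)) ∘ ofComplex) := by
    funext z
    simp only [Function.comp_apply, ofComplex_apply]
    rfl
  rw [h4, hdet1] at h3
  have h5 : (f ∣[(2 : ℤ)] δ) τ = f (δ • τ) * (((1 : ℝ) : ℂ) / denom (δ : GL (Fin 2) ℝ) τ ^ 2) := by
    rw [SL_slash_apply, zpow_neg]
    simp
  rw [h5]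
  exact h3

/-- The primitive of a weight 2 cusp form for a finite index subgroup. -/
theorem exists_primitive_form {Γ : Subgroup SL(2, ℤ)} [Γ.FiniteIndex] {f : ℍ → ℂ}
    (hf : IsCF Γ 2 f) :
    ∃ F : ℍ → ℂ, (∀ τ : ℍ, HasDerivAt (F ∘ ofComplex) (f τ) τ) ∧ Tendsto F atImInfty (𝓝 0) ∧
      (∀ γ ∈ Γ, ∃ c : ℂ, ∀ z : ℍ, F (γ • z) - F z = c) ∧
      ∃ M : ℕ, 0 < M ∧ ∀ δ : SL(2, ℤ), QHolo M (fun w => F (δ • w)) := by
  obtain ⟨M, hM, hMΓ⟩ := IsMF.exists_T_pow_mem Γ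
  have hprim : ∀ δ : SL(2, ℤ), ∃ H : ℍ → ℂ, QHolo M H ∧ Tendsto H atImInfty (𝓝 0) ∧
      ∀ τ : ℍ, HasDerivAt (H ∘ ofComplex) ((f ∣[(2 : ℤ)] δ) τ) τ := fun δ =>
    exists_primitive hM (hf.toHB.slash δ).holo
      (IsMF.exists_periodic Γ rfl hf.toIsMF M hMΓ δ) (hf.zero_cusps δ)
  obtain ⟨F, hFq, hF0, hFd⟩ := hprim 1
  rw [SlashAction.slash_one] at hFd
  refine ⟨F, hFd, hF0, fun γ hγ => ?_, M, hM, fun δ => ?_⟩
  · obtain ⟨c, hc⟩ := sub_const_of_hasDerivAt (h := f) (A := fun w => F (γ • w)) (B := F)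
      (fun τ => by
        have := hasDerivAt_comp_smul hFd γ τ
        rwa [hf.slash γ hγ] at this) hFd
    exact ⟨c, fun z => by rw [hc z]; ring⟩
  · obtain ⟨H, hHq, hH0, hHd⟩ := hprim δ
    obtain ⟨c, hc⟩ := sub_const_of_hasDerivAt (fun τ => hasDerivAt_comp_smul hFd δ τ) hHd
    obtain ⟨G, hG, hGH⟩ := hHq
    refine ⟨fun q => G q + c, hG.add_const c, fun w => ?_⟩
    change F (δ • w) = G (𝕢 M w) + c
    rw [hc w, hGH]

section periodMap

open ModularCurve ModularCurve.Period CongruenceSubgroup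

variable (N : ℕ) [NeZero N]

theorem exists_hasEquivariantPrimitive (f : CuspForm (Gamma0 N) 2) :
    ∃ F : ℍ → ℂ, HasEquivariantPrimitive N f F ∧
      ∃ M : ℕ, 0 < M ∧ ∀ δ : SL(2, ℤ), QHolo M (fun w => F (δ • w)) := by
  obtain ⟨F, hFd, hF0, hFe, M, hM, hFM⟩ :=
    exists_primitive_form (IsCF.of_class (Γ := Gamma0 N) (k := 2) f)
  exact ⟨F, ⟨hFd, hF0, fun γ => hFe γ γ.2, fun δ => (hFM δ).tendsto hM⟩, M, hM, hFM⟩

variable {N}

omit [NeZero N] in
lemma periodMap_apply {f : CuspForm (Gamma0 N) 2} {F : ℍ → ℂ} (hF : HasEquivariantPrimitive N f F)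
    (γ : Gamma0 N) (z : ℍ) :
    periodMap N f (Additive.ofMul γ) = F ((γ : SL(2, ℤ)) • z) - F z := by
  obtain ⟨F₀, h₀, heq⟩ := periodMap_def N f hF
  rw [heq, IsEquivariantPrimitive.periodHom_apply, ← h₀.2.2.1.sub_eq_period γ z]
  obtain ⟨c, hc⟩ := sub_const_of_hasDerivAt h₀.1 hF.1
  rw [hc, hc]
  ring

lemma HasEquivariantPrimitive.add {f g : CuspForm (Gamma0 N) 2} {F G : ℍ → ℂ}
    (hF : HasEquivariantPrimitive N f F) (hG : HasEquivariantPrimitive N g G) :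
    HasEquivariantPrimitive N (f + g) (F + G) := by
  refine ⟨fun τ => (hF.1 τ).add (hG.1 τ), by
    have := hF.2.1.add hG.2.1
    rw [add_zero] at this
    exact this, fun γ => ?_,
    fun δ => ?_⟩
  · obtain ⟨a, ha⟩ := hF.2.2.1 γ
    obtain ⟨b, hb⟩ := hG.2.2.1 γ
    refine ⟨a + b, fun z => ?_⟩
    rw [Pi.add_apply, Pi.add_apply, ← ha z, ← hb z]; ring
  · obtain ⟨a, ha⟩ := hF.2.2.2 δ
    obtain ⟨b, hb⟩ := hG.2.2.2 δ
    exact ⟨a + b, ha.add hb⟩

lemma HasEquivariantPrimitive.smul {f : CuspForm (Gamma0 N) 2} {F : ℍ → ℂ} (c : ℂ)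
    (hF : HasEquivariantPrimitive N f F) : HasEquivariantPrimitive N (c • f) (c • F) := by
  refine ⟨fun τ => (hF.1 τ).const_mul c, by
    have := hF.2.1.const_mul c
    rw [mul_zero] at this
    exact this, fun γ => ?_,
    fun δ => ?_⟩
  · obtain ⟨a, ha⟩ := hF.2.2.1 γ
    refine ⟨c * a, fun z => ?_⟩
    rw [Pi.smul_apply, Pi.smul_apply, ← ha z, smul_eq_mul, smul_eq_mul]; ring
  · obtain ⟨a, ha⟩ := hF.2.2.2 δ
    exact ⟨c * a, ha.const_mul c⟩

variable (N)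

/-- the linear period map -/
def pml : CuspForm (Gamma0 N) 2 →ₗ[ℂ] (Additive (Gamma0 N) →+ ℂ) where
  toFun f := periodMap N f
  map_add' f g := by
    obtain ⟨F, hF, -⟩ := exists_hasEquivariantPrimitive N f
    obtain ⟨G, hG, -⟩ := exists_hasEquivariantPrimitive N g
    ext γ
    change periodMap N (f + g) (Additive.ofMul γ) =
      periodMap N f (Additive.ofMul γ) + periodMap N g (Additive.ofMul γ)
    rw [periodMap_apply (HasEquivariantPrimitive.add hF hG) γ UpperHalfPlane.I,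
      periodMap_apply hF γ UpperHalfPlane.I, periodMap_apply hG γ UpperHalfPlane.I]
    simp only [Pi.add_apply]
    ring
  map_smul' c f := by
    obtain ⟨F, hF, -⟩ := exists_hasEquivariantPrimitive N f
    ext γ
    change periodMap N (c • f) (Additive.ofMul γ) = c • periodMap N f (Additive.ofMul γ)
    rw [periodMap_apply (HasEquivariantPrimitive.smul c hF) γ UpperHalfPlane.I,
      periodMap_apply hF γ UpperHalfPlane.I]
    simp only [Pi.smul_apply, smul_eq_mul]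
    ring

lemma pml_apply (f : CuspForm (Gamma0 N) 2) : pml N f = periodMap N f := rfl

theorem existsPeriodMapLinear : ExistsPeriodMapLinear N := ⟨pml N, fun _ => rfl⟩

lemma periodHomPair_apply (p : CuspForm (Gamma0 N) 2 × CuspForm (Gamma0 N) 2) :
    periodHomPair N p = pml N (p.1 + p.2) + charInvolution N ℂ ℂ (pml N (p.1 - p.2)) := by
  obtain ⟨q, hq, h⟩ := periodHomPair_def N (existsPeriodMapLinear N)
  have hq' : q = pml N := LinearMap.ext fun f => by rw [hq]; rfl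
  rw [h, hq']
  simp only [LinearMap.coprod_apply, LinearMap.comp_apply, LinearMap.add_apply, LinearMap.sub_apply,
    LinearMap.id_apply, map_add, map_sub]
  abel

end periodMap

end

end Fermat.Agent.Period
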