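import Fermat.Agent.Period.Parab

set_option autoImplicit false

open UpperHalfPlane hiding I
open ModularForm Complex Filter Topology Matrix.SpecialLinearGroup Metric
open scoped MatrixGroups Manifold Real
open Fermat.Agent.MFLib ModularCurve ModularCurve.Period CongruenceSubgroup

namespace Fermat.Agent.Period

noncomputable section

local notation "𝕢" => Function.Periodic.qParam

/-- Maximum modulus principle on the compactified modular curve. -/
theorem eq_const_of_norm_invariant {Γ : Subgroup SL(2, ℤ)} [Γ.FiniteIndex] {E : ℍ → ℂ}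
    (h1 : ∀ γ ∈ Γ, ∀ z : ℍ, ‖E (γ • z)‖ = ‖E z‖) {M : ℕ} (hM : 0 < M)
    (h2 : ∀ δ : SL(2, ℤ), QHolo M (fun w => E (δ • w))) : ∃ c : ℂ, ∀ z, E z = c := by
  have hM' : (0 : ℝ) < M := by exact_mod_cast hM
  choose G hG hE using h2
  set r : ℝ := Real.exp (-π / M) with hr
  have hr1 : r < 1 := by
    exact Real.exp_lt_one_iff.mpr (div_neg_of_neg_of_pos (neg_lt_zero.mpr Real.pi_pos) hM')
  have hr0 : 0 ≤ r := (Real.exp_pos _).le
  have hK : closedBall (0 : ℂ) r ⊆ ball 0 1 := closedBall_subset_ball hr1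
  -- maxima on the closed ball
  have hmax : ∀ δ : SL(2, ℤ), ∃ x ∈ closedBall (0 : ℂ) r, ∀ y ∈ closedBall (0 : ℂ) r,
      ‖G δ y‖ ≤ ‖G δ x‖ := by
    intro δ
    obtain ⟨x, hx, hx2⟩ := (isCompact_closedBall (0 : ℂ) r).exists_isMaxOn
      ⟨0, mem_closedBall_self hr0⟩ ((hG δ).continuousOn.mono hK).norm
    exact ⟨x, hx, fun y hy => hx2 hy⟩
  choose x hx hxmax using hmax
  obtain ⟨q₀, -, hq₀⟩ := Finset.exists_max_image (Finset.univ : Finset (SL(2, ℤ) ⧸ Γ))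
    (fun q => ‖G (q.out)⁻¹ (x (q.out)⁻¹)‖) ⟨((1 : SL(2, ℤ)) : SL(2, ℤ) ⧸ Γ), Finset.mem_univ _⟩
  set δ₀ := (q₀.out)⁻¹ with hδ₀
  set C := ‖G δ₀ (x δ₀)‖ with hC
  have hbound : ∀ z : ℍ, ‖E z‖ ≤ C := by
    intro z
    obtain ⟨γ, hγ⟩ := ModularGroup.exists_one_half_le_im_smul z
    set w := γ • z with hw
    set q : SL(2, ℤ) ⧸ Γ := QuotientGroup.mk γ with hq
    obtain ⟨g, hg⟩ := QuotientGroup.mk_out_eq_mul Γ γ
    have hg' : q.out = γ * g := hg
    have h3 : ‖E z‖ = ‖E ((q.out)⁻¹ • w)‖ := by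
      rw [hg', hw, mul_inv_rev, mul_smul, inv_smul_smul, h1 _ (Γ.inv_mem g.2)]
    have h4 : E ((q.out)⁻¹ • w) = G (q.out)⁻¹ (𝕢 M w) := hE (q.out)⁻¹ w
    have h5 : 𝕢 M (w : ℂ) ∈ closedBall (0 : ℂ) r := by
      rw [mem_closedBall_zero_iff, Function.Periodic.norm_qParam, hr, Real.exp_le_exp]
      apply div_le_div_of_nonneg_right _ hM'.le
      have : (1 : ℝ) / 2 ≤ (w : ℂ).im := hγ
      nlinarith [Real.pi_pos]
    rw [h3, h4]
    exact (hxmax _ _ h5).trans (hq₀ q (Finset.mem_univ _))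
  have hball : ∀ y ∈ ball (0 : ℂ) 1, y ≠ 0 → ‖G δ₀ y‖ ≤ C := by
    intro y hy hy0
    rw [mem_ball_zero_iff] at hy
    have him := Function.Periodic.im_invQParam_pos_of_norm_lt_one hM' hy hy0
    have h6 := hE δ₀ ⟨_, him⟩
    have h7 : 𝕢 M (((⟨_, him⟩ : ℍ) : ℂ)) = y := Function.Periodic.qParam_right_inv hM'.ne' hy0
    rw [h7] at h6
    rw [← h6]
    exact hbound _
  have hmaxon : IsMaxOn (norm ∘ G δ₀) (ball 0 1) (x δ₀) := by
    intro y hy
    simp only [Function.comp_apply, Set.mem_ofPred_eq]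
    rcases eq_or_ne y 0 with rfl | hy0
    · have hcont : ContinuousAt (fun y => ‖G δ₀ y‖) 0 :=
        (((hG δ₀).differentiableAt (ball_mem_nhds _ one_pos)).continuousAt).norm
      have h8 : Tendsto (fun y => ‖G δ₀ y‖) (𝓝[≠] (0 : ℂ)) (𝓝 ‖G δ₀ 0‖) :=
        hcont.tendsto.mono_left nhdsWithin_le_nhds
      refine le_of_tendsto h8 ?_
      rw [eventually_nhdsWithin_iff]
      filter_upwards [ball_mem_nhds (0 : ℂ) one_pos] with y hy hy0
      exact hball y hy hy0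
    · exact hball y hy hy0
  have hconst := Complex.eqOn_of_isPreconnected_of_isMaxOn_norm
    (convex_ball (0 : ℂ) 1).isPreconnected isOpen_ball (hG δ₀) (hK (hx δ₀)) hmaxon
  refine ⟨G δ₀ (x δ₀), fun z => ?_⟩
  have h9 := hE δ₀ (δ₀⁻¹ • z)
  simp only [smul_inv_smul] at h9
  rw [h9]
  exact hconst (qParam_mem_ball hM _)

end

end Fermat.Agent.Period
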