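import Mathlib

set_option autoImplicit false

open Finset

namespace Fermat.Agent.Period

noncomputable section

/-! ### Operators of finite order -/

section general

variable {V : Type*} [AddCommGroup V] [Module ℂ V]

lemma range_sub_one_eq_ker_sum {P : Module.End ℂ V} {n : ℕ} (hn : 0 < n) (hP : P ^ n = 1) :
    LinearMap.ker (∑ i ∈ range n, P ^ i) = LinearMap.range (P - 1) := by
  apply le_antisymm
  · intro x hx
    rw [LinearMap.mem_ker] at hx
    have h1 : ∀ i : ℕ, ∃ y : V, x - (P ^ i) x = (P - 1) y := by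
      intro i
      induction i with
      | zero => exact ⟨0, by simp⟩
      | succ i ih =>
        obtain ⟨y, hy⟩ := ih
        refine ⟨y - (P ^ i) x, ?_⟩
        rw [map_sub, ← hy, pow_succ']
        simp
    choose y hy using h1
    have h2 : (n : ℂ) • x = (P - 1) (∑ i ∈ range n, y i) := by
      rw [map_sum, ← Finset.sum_congr rfl fun i _ => hy i, Finset.sum_sub_distrib]
      rw [LinearMap.sum_apply] at hx
      rw [hx, sub_zero, Finset.sum_const, card_range, Nat.cast_smul_eq_nsmul]
    refine ⟨(n : ℂ)⁻¹ • ∑ i ∈ range n, y i, ?_⟩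
    rw [map_smul, ← h2, smul_smul, inv_mul_cancel₀ (by exact_mod_cast hn.ne'), one_smul]
  · rintro _ ⟨y, rfl⟩
    rw [LinearMap.mem_ker]
    have h3 : (∑ i ∈ range n, P ^ i) * (P - 1) = 0 := by
      rw [geom_sum_mul, hP, sub_self]
    exact LinearMap.congr_fun h3 y

lemma finrank_range_add_finrank_ker [FiniteDimensional ℂ V] (P : Module.End ℂ V) :
    Module.finrank ℂ (LinearMap.range (P - 1)) + Module.finrank ℂ (LinearMap.ker (P - 1)) =
      Module.finrank ℂ V := (P - 1).finrank_range_add_finrank_ker

/-- dimension of the fixed space of an operator of finite order -/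
lemma finrank_ker_eq_trace [FiniteDimensional ℂ V] {P : Module.End ℂ V} {n : ℕ} (hn : 0 < n)
    (hP : P ^ n = 1) : (n : ℂ) * Module.finrank ℂ (LinearMap.ker (P - 1)) =
      ∑ i ∈ range n, LinearMap.trace ℂ V (P ^ i) := by
  have hn0 : (n : ℂ) ≠ 0 := by exact_mod_cast hn.ne'
  set A : Module.End ℂ V := (n : ℂ)⁻¹ • ∑ i ∈ range n, P ^ i with hA
  have hproj : LinearMap.IsProj (LinearMap.ker (P - 1)) A := by
    refine ⟨fun x => ?_, fun x hx => ?_⟩
    · rw [LinearMap.mem_ker]
      have h3 : (P - 1) * (∑ i ∈ range n, P ^ i) = 0 := by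
        rw [mul_geom_sum, hP, sub_self]
      rw [hA, LinearMap.smul_apply, map_smul]
      have := LinearMap.congr_fun h3 x
      change (P - 1) ((∑ i ∈ range n, P ^ i) x) = 0 at this
      rw [this, smul_zero]
    · rw [LinearMap.mem_ker, LinearMap.sub_apply, sub_eq_zero] at hx
      have h4 : ∀ i : ℕ, (P ^ i) x = x := by
        intro i
        induction i with
        | zero => rfl
        | succ i ih =>
          rw [pow_succ]
          change (P ^ i) (P x) = x
          rw [hx]
          exact ih
      rw [hA, LinearMap.smul_apply, LinearMap.sum_apply, Finset.sum_congr rfl fun i _ => h4 i,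
        Finset.sum_const, card_range, ← Nat.cast_smul_eq_nsmul ℂ, smul_smul, inv_mul_cancel₀ hn0,
        one_smul]
  have h5 := hproj.trace
  rw [← h5, hA, map_smul, map_sum, smul_eq_mul, mul_inv_cancel_left₀ hn0]

end general

/-! ### Permutation operators -/

section perm

variable {X : Type*} [Fintype X]

/-- composition with a self map -/
def cmp (σ : X → X) : Module.End ℂ (X → ℂ) := LinearMap.funLeft ℂ ℂ σ

omit [Fintype X] in
@[simp] lemma cmp_apply (σ : X → X) (f : X → ℂ) (x : X) : cmp σ f x = f (σ x) := rfl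

omit [Fintype X] in
lemma cmp_pow (σ : X → X) (n : ℕ) : cmp σ ^ n = cmp (σ^[n]) := by
  induction n with
  | zero => ext f x; rfl
  | succ n ih =>
    rw [pow_succ, ih]
    ext f x
    change (cmp (σ^[n]) (cmp σ _)) x = _
    rw [cmp_apply, cmp_apply, cmp_apply, Function.iterate_succ_apply']

lemma trace_cmp [DecidableEq X] (σ : X → X) :
    LinearMap.trace ℂ (X → ℂ) (cmp σ) = (Finset.univ.filter fun x => σ x = x).card := by
  rw [LinearMap.trace_eq_matrix_trace ℂ (Pi.basisFun ℂ X), Matrix.trace]
  simp only [Matrix.diag_apply, LinearMap.toMatrix_apply, Pi.basisFun_apply, Pi.basisFun_repr,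
    cmp_apply, Pi.single_apply]
  rw [Finset.sum_boole]

end perm

end

end Fermat.Agent.Period
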