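import Fermat.Agent.MFLib.Cusp
import Fermat.Prelude.Def_ModularCurve_PeriodHomPair

set_option autoImplicit false

open UpperHalfPlane hiding I
open ModularForm Complex Filter Topology Matrix.SpecialLinearGroup Metric
open scoped MatrixGroups Manifold Real
open Fermat.Agent.MFLib

namespace Fermat.Agent.Period

noncomputable section

local notation "𝕢" => Function.Periodic.qParam

/-- `E` is a holomorphic function of `q = exp(2πi τ/M)` on the unit disc. -/
def QHolo (M : ℕ) (E : ℍ → ℂ) : Prop :=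
  ∃ G : ℂ → ℂ, DifferentiableOn ℂ G (ball 0 1) ∧ ∀ w : ℍ, E w = G (𝕢 M w)

lemma QHolo.tendsto {M : ℕ} (hM : 0 < M) {E : ℍ → ℂ} (h : QHolo M E) :
    ∃ L : ℂ, Tendsto E atImInfty (𝓝 L) := by
  obtain ⟨G, hG, hE⟩ := h
  have hM' : (0 : ℝ) < M := by exact_mod_cast hM
  refine ⟨G 0, ?_⟩
  have h1 : ContinuousAt G 0 :=
    (hG.differentiableAt (ball_mem_nhds _ one_pos)).continuousAt
  have h2 := h1.tendsto.comp (qParam_tendsto_atImInfty hM')
  refine h2.congr fun w => ?_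
  rw [hE]; rfl

lemma qParam_mem_ball {M : ℕ} (hM : 0 < M) (w : ℍ) : 𝕢 M (w : ℂ) ∈ ball (0 : ℂ) 1 := by
  have hM' : (0 : ℝ) < M := by exact_mod_cast hM
  rw [mem_ball_zero_iff]
  exact Function.Periodic.norm_qParam_lt_one hM' w.im_pos

lemma hasDerivAt_qParam (M : ℕ) (z : ℂ) :
    HasDerivAt (𝕢 M) (𝕢 M z * (2 * π * I / M)) z := by
  unfold Function.Periodic.qParam
  have h1 : HasDerivAt (fun z : ℂ => 2 * π * I * z / M) (2 * π * I / M) z := by
    have := ((hasDerivAt_id z).const_mul (2 * π * I)).div_const (M : ℂ)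
    simpa using this
  simpa using h1.cexp

/-- primitives of functions vanishing at infinity -/
theorem exists_primitive {M : ℕ} (hM : 0 < M) {h : ℍ → ℂ} (hhol : MDiff h)
    (hper : Function.Periodic (h ∘ ofComplex) (M : ℝ)) (hz : IsZeroAtImInfty h) :
    ∃ H : ℍ → ℂ, QHolo M H ∧ Tendsto H atImInfty (𝓝 0) ∧
      ∀ τ : ℍ, HasDerivAt (H ∘ ofComplex) (h τ) τ := by
  have hM' : (0 : ℝ) < M := by exact_mod_cast hM
  have hMC : (M : ℂ) ≠ 0 := by exact_mod_cast hM.ne'
  have hbdd : IsBoundedAtImInfty h := hz.isBoundedAtImInfty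
  set g := cuspFunction M h with hg
  have hgd : DifferentiableOn ℂ g (ball 0 1) :=
    differentiableOn_cuspFunction_ball hM' hper hhol hbdd
  have hg0 : g 0 = 0 := hz.cuspFunction_apply_zero hM'
  have hd1 : DifferentiableOn ℂ (dslope g 0) (ball 0 1) :=
    (differentiableOn_dslope (ball_mem_nhds _ one_pos)).mpr hgd
  obtain ⟨G, hG0, hG⟩ := (DifferentiableOn.isExactOn_ball
    (hd1.const_mul ((M : ℂ) / (2 * π * I)))).with_val_at 0 0
  have hGd : DifferentiableOn ℂ G (ball 0 1) := fun z hz =>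
    (hG z hz).differentiableAt.differentiableWithinAt
  refine ⟨fun w => G (𝕢 M w), ⟨G, hGd, fun w => rfl⟩, ?_, ?_⟩
  · have h1 : ContinuousAt G 0 := (hGd.differentiableAt (ball_mem_nhds _ one_pos)).continuousAt
    have h2 := h1.tendsto.comp (qParam_tendsto_atImInfty hM')
    rw [hG0] at h2
    exact h2
  · intro τ
    have hq := qParam_mem_ball hM τ
    have h1 : HasDerivAt (fun z : ℂ => G (𝕢 M z))
        (((M : ℂ) / (2 * π * I) * dslope g 0 (𝕢 M τ)) * (𝕢 M (τ : ℂ) * (2 * π * I / M))) (τ : ℂ) :=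
      (hG _ hq).comp (τ : ℂ) (hasDerivAt_qParam M τ)
    have h2 : ((M : ℂ) / (2 * π * I) * dslope g 0 (𝕢 M τ)) * (𝕢 M (τ : ℂ) * (2 * π * I / M)) =
        h τ := by
      have h3 : 𝕢 M (τ : ℂ) * dslope g 0 (𝕢 M τ) = g (𝕢 M τ) := by
        have := sub_smul_dslope g 0 (𝕢 M (τ : ℂ))
        simpa [hg0] using this
      have h4 : g (𝕢 M τ) = h τ := eq_cuspFunction τ hM'.ne' hper
      rw [← h4, ← h3]
      have hpi : (π : ℂ) ≠ 0 := by exact_mod_cast Real.pi_ne_zero
      field_simp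
    rw [h2] at h1
    refine h1.congr_of_eventuallyEq ?_
    filter_upwards [isOpen_upperHalfPlaneSet.mem_nhds τ.im_pos] with z hz
    simp only [Function.comp_apply]
    rw [ofComplex_apply_of_im_pos hz]

lemma sub_const_of_hasDerivAt {A B h : ℍ → ℂ}
    (hA : ∀ τ : ℍ, HasDerivAt (A ∘ ofComplex) (h τ) τ)
    (hB : ∀ τ : ℍ, HasDerivAt (B ∘ ofComplex) (h τ) τ) : ∃ c : ℂ, ∀ τ, A τ = B τ + c := by
  have hd : ∀ τ : ℍ, HasDerivAt (A ∘ ofComplex - B ∘ ofComplex) 0 (τ : ℂ) := fun τ => by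
    simpa using (hA τ).sub (hB τ)
  have hopen : IsOpen {z : ℂ | 0 < z.im} := isOpen_upperHalfPlaneSet
  have hconv : Convex ℝ {z : ℂ | 0 < z.im} := convex_halfSpace_im_gt 0
  obtain ⟨c, hc⟩ := hopen.exists_is_const_of_deriv_eq_zero hconv.isPreconnected
    (f := A ∘ ofComplex - B ∘ ofComplex)
    (fun z hz => (hd ⟨z, hz⟩).differentiableAt.differentiableWithinAt)
    (fun z hz => (hd ⟨z, hz⟩).deriv)
  refine ⟨c, fun τ => ?_⟩
  have := hc (τ : ℂ) τ.im_pos
  simp only [Pi.sub_apply, Function.comp_apply, ofComplex_apply] at this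
  rw [← this]; ring

end

end Fermat.Agent.Period
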